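import Fermat.Agent.S21.Primitive

set_option autoImplicit false

namespace Fermat.Agent.S21

open UpperHalfPlane Filter Topology Function CongruenceSubgroup ModularCurve ModularCurve.Period
open scoped Real Manifold MatrixGroups ModularForm

variable {N : ℕ} in
/-- Explicit formula for the period map in terms of any equivariant primitive. -/
theorem periodMap_apply_of_hasEquivariantPrimitive {f : CuspForm (Gamma0 N) 2} {F : ℍ → ℂ}
    (hF : HasEquivariantPrimitive N f F) (γ : Gamma0 N) (z : ℍ) :
    periodMap N f (Additive.ofMul γ) = F ((γ : SL(2, ℤ)) • z) - F z := by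
  obtain ⟨F₀, h₀, h⟩ := periodMap_def N f hF
  rw [h, IsEquivariantPrimitive.periodHom_apply, ← h₀.2.2.1.sub_eq_period γ z]
  have := sub_eq_sub_of_hasDerivAt h₀.1 hF.1 ((γ : SL(2, ℤ)) • z) z
  linear_combination this

variable {N : ℕ} in
theorem hasEquivariantPrimitive_add {f g : CuspForm (Gamma0 N) 2} {F G : ℍ → ℂ}
    (hF : HasEquivariantPrimitive N f F) (hG : HasEquivariantPrimitive N g G) :
    HasEquivariantPrimitive N (f + g) (fun z => F z + G z) := by
  refine ⟨fun τ => (hF.1 τ).add (hG.1 τ), by simpa using hF.2.1.add hG.2.1, fun γ => ?_,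
    fun δ => ?_⟩
  · obtain ⟨c, hc⟩ := hF.2.2.1 γ
    obtain ⟨d, hd⟩ := hG.2.2.1 γ
    exact ⟨c + d, fun z => by linear_combination hc z + hd z⟩
  · obtain ⟨c, hc⟩ := hF.2.2.2 δ
    obtain ⟨d, hd⟩ := hG.2.2.2 δ
    exact ⟨c + d, hc.add hd⟩

variable {N : ℕ} in
theorem hasEquivariantPrimitive_smul {f : CuspForm (Gamma0 N) 2} {F : ℍ → ℂ} (a : ℂ)
    (hF : HasEquivariantPrimitive N f F) :
    HasEquivariantPrimitive N (a • f) (fun z => a * F z) := by
  refine ⟨fun τ => (hF.1 τ).const_mul a, by simpa using hF.2.1.const_mul a, fun γ => ?_,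
    fun δ => ?_⟩
  · obtain ⟨c, hc⟩ := hF.2.2.1 γ
    exact ⟨a * c, fun z => by linear_combination a * hc z⟩
  · obtain ⟨c, hc⟩ := hF.2.2.2 δ
    exact ⟨a * c, hc.const_mul a⟩

variable (N : ℕ) [NeZero N]

theorem periodMap_add (f g : CuspForm (Gamma0 N) 2) :
    periodMap N (f + g) = periodMap N f + periodMap N g := by
  obtain ⟨F, hF⟩ := exists_hasEquivariantPrimitive N f
  obtain ⟨G, hG⟩ := exists_hasEquivariantPrimitive N g
  refine AddMonoidHom.ext fun γ => ?_
  obtain ⟨γ, rfl⟩ := Additive.ofMul.surjective γ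
  rw [AddMonoidHom.add_apply, periodMap_apply_of_hasEquivariantPrimitive (hasEquivariantPrimitive_add hF hG) γ I,
    periodMap_apply_of_hasEquivariantPrimitive hF γ I,
    periodMap_apply_of_hasEquivariantPrimitive hG γ I]
  ring

theorem periodMap_smul (a : ℂ) (f : CuspForm (Gamma0 N) 2) :
    periodMap N (a • f) = a • periodMap N f := by
  obtain ⟨F, hF⟩ := exists_hasEquivariantPrimitive N f
  refine AddMonoidHom.ext fun γ => ?_
  obtain ⟨γ, rfl⟩ := Additive.ofMul.surjective γ
  rw [AddMonoidHom.smul_apply, periodMap_apply_of_hasEquivariantPrimitive (hasEquivariantPrimitive_smul a hF) γ I,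
    periodMap_apply_of_hasEquivariantPrimitive hF γ I, smul_eq_mul]
  ring

/-- The period map, bundled as a linear map. -/
noncomputable def periodMapLin : CuspForm (Gamma0 N) 2 →ₗ[ℂ] (Additive (Gamma0 N) →+ ℂ) where
  toFun := periodMap N
  map_add' := periodMap_add N
  map_smul' := periodMap_smul N

theorem existsPeriodMapLinear : ExistsPeriodMapLinear N := ⟨periodMapLin N, fun _ => rfl⟩

theorem periodHomPair_apply (f g : CuspForm (Gamma0 N) 2) :
    periodHomPair N (f, g) = (periodMap N f + charInvolution N ℂ ℂ (periodMap N f))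
      + (periodMap N g - charInvolution N ℂ ℂ (periodMap N g)) := by
  obtain ⟨pml, hpml, h⟩ := periodHomPair_def N (existsPeriodMapLinear N)
  rw [h]
  simp [LinearMap.coprod_apply, hpml]

end Fermat.Agent.S21
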