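import Fermat.Agent.S21.MaxPrinciple

set_option autoImplicit false

namespace Fermat.Agent.S21

open UpperHalfPlane Filter Topology Function CongruenceSubgroup ModularCurve ModularCurve.Period
open scoped Real Manifold MatrixGroups ModularForm ComplexConjugate

theorem tendsto_T_zpow_smul (m : ℤ) :
    Tendsto (fun w : ℍ => ModularGroup.T ^ m • w) atImInfty atImInfty := by
  simp only [modular_T_zpow_smul, atImInfty, tendsto_comap_iff, Function.comp_def, vadd_im]
  exact tendsto_comap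

/-- The primitive of a cusp form is periodic at every cusp. -/
theorem exists_period_of_hasEquivariantPrimitive (N : ℕ) [NeZero N] :
    ∃ M : ℕ, 0 < M ∧ ∀ (f : CuspForm (Gamma0 N) 2) (F : ℍ → ℂ), HasEquivariantPrimitive N f F →
      ∀ (δ : SL(2, ℤ)) (w : ℍ), F (δ • ((M : ℝ) +ᵥ w)) = F (δ • w) := by
  obtain ⟨M, hM, hper⟩ := slash_periodic N
  refine ⟨M, hM, fun f F hF δ w => ?_⟩
  have hT : ∀ w : ℍ, ((M : ℝ) +ᵥ w) = ModularGroup.T ^ (M : ℤ) • w := fun w => by
    rw [modular_T_zpow_smul]; simp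
  have h1 : ∀ τ : ℍ, HasDerivAt ((fun w : ℍ => F ((δ * ModularGroup.T ^ (M : ℤ)) • w)) ∘ ofComplex)
      ((⇑f ∣[(2 : ℤ)] δ) τ) ↑τ := by
    intro τ
    have h2 := hasDerivAt_comp_smul hF.1 (δ * ModularGroup.T ^ (M : ℤ)) τ
    have h3 : (⇑f ∣[(2 : ℤ)] (δ * ModularGroup.T ^ (M : ℤ))) τ = (⇑f ∣[(2 : ℤ)] δ) τ := by
      rw [SlashAction.slash_mul, ModularForm.SL_slash_apply, ← hT]
      have h4 := hper f δ (τ : ℂ)
      simp only [comp_apply, ofComplex_apply] at h4
      have h5 : ofComplex ((τ : ℂ) + (M : ℝ)) = (M : ℝ) +ᵥ τ := by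
        rw [← ofComplex_apply ((M : ℝ) +ᵥ τ)]
        congr 1
        simp [add_comm]
      rw [h5] at h4
      rw [h4]
      have h6 : denom (ModularGroup.T ^ (M : ℤ) : SL(2, ℤ)) (τ : ℂ) = 1 := by
        rw [ModularGroup.denom_apply, ModularGroup.coe_T_zpow]; simp
      rw [h6]; simp
    rwa [h3] at h2
  obtain ⟨L, hL⟩ := hF.2.2.2 δ
  have h2 : ∀ w : ℍ, F ((δ * ModularGroup.T ^ (M : ℤ)) • w) - F (δ • w)
      = F ((δ * ModularGroup.T ^ (M : ℤ)) • I) - F (δ • I) := fun w =>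
    sub_eq_sub_of_hasDerivAt (F := fun w => F ((δ * ModularGroup.T ^ (M : ℤ)) • w))
      (G := fun w => F (δ • w)) h1 (hasDerivAt_comp_smul hF.1 δ) w I
  have h3 : Tendsto (fun w : ℍ => F ((δ * ModularGroup.T ^ (M : ℤ)) • w) - F (δ • w)) atImInfty
      (𝓝 (L - L)) := by
    simp only [mul_smul]
    exact (hL.comp (tendsto_T_zpow_smul M)).sub hL
  simp only [h2, sub_self] at h3
  have h4 := tendsto_nhds_unique tendsto_const_nhds h3
  have h5 := h2 w
  rw [h4, mul_smul, ← hT] at h5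
  exact sub_eq_zero.mp h5

theorem J_smul_smul (δ : SL(2, ℤ)) (w : ℍ) : J • (δ • w) = jConjSL δ • (J • w) := by
  have h : J * (δ : GL (Fin 2) ℝ) = (jConjSL δ : GL (Fin 2) ℝ) * J := by
    ext i j
    fin_cases i <;> fin_cases j <;> simp [Matrix.mul_apply, Fin.sum_univ_two, jConjMat]
  rw [ModularGroup.sl_moeb, ModularGroup.sl_moeb, ← mul_smul, h, mul_smul]

theorem J_smul_J_smul (w : ℍ) : J • (J • w) = w := by
  rw [← mul_smul, ← sq, J_sq, one_smul]

theorem J_smul_vadd (x : ℝ) (w : ℍ) : J • (x +ᵥ w) = (-x) +ᵥ (J • w) := by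
  ext
  simp [coe_J_smul]
  ring

theorem im_J_smul (w : ℍ) : (J • w).im = w.im := by
  have : ((J • w : ℍ) : ℂ).im = (w : ℂ).im := by rw [coe_J_smul]; simp
  exact this

theorem tendsto_J_smul : Tendsto (fun w : ℍ => J • w) atImInfty atImInfty := by
  simp only [atImInfty, tendsto_comap_iff, Function.comp_def, im_J_smul]
  exact tendsto_comap

theorem hasDerivAt_conj_comp_J {F f : ℍ → ℂ} (hF : ∀ τ : ℍ, HasDerivAt (F ∘ ofComplex) (f τ) ↑τ)
    (τ : ℍ) : HasDerivAt ((fun w : ℍ => conj (F (J • w))) ∘ ofComplex) (-conj (f (J • τ))) ↑τ := by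
  have h1 : HasDerivAt (F ∘ ofComplex) (f (J • τ)) (-(conj (τ : ℂ))) := by
    rw [← coe_J_smul]; exact hF _
  have h2 : HasDerivAt (fun w : ℂ => (F ∘ ofComplex) (-w)) (-(f (J • τ))) (conj (τ : ℂ)) := by
    have := HasDerivAt.comp (h₂ := F ∘ ofComplex) (h := fun w : ℂ => -w) (conj (τ : ℂ)) h1
      (hasDerivAt_neg _)
    simpa [Function.comp_def] using this
  have h3 := h2.conj_conj
  rw [Complex.conj_conj, map_neg] at h3
  refine h3.congr_of_eventuallyEq ?_
  filter_upwards [isOpen_upperHalfPlaneSet.mem_nhds τ.im_pos] with w hw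
  simp only [comp_apply]
  congr 2
  rw [← ofComplex_apply (J • ofComplex w), coe_J_smul, ofComplex_apply_of_im_pos hw]


/-- Core of the injectivity of the Eichler--Shimura map. -/
theorem eq_zero_of_periodMap_add_charInvolution (N : ℕ) [NeZero N] (h₁ h₂ : CuspForm (Gamma0 N) 2)
    (h : periodMap N h₁ + charInvolution N ℂ ℂ (periodMap N h₂) = 0) : h₁ = 0 ∧ h₂ = 0 := by
  obtain ⟨F₁, hF₁⟩ := exists_hasEquivariantPrimitive N h₁
  obtain ⟨F₂, hF₂⟩ := exists_hasEquivariantPrimitive N h₂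
  obtain ⟨M, hM, hper⟩ := exists_period_of_hasEquivariantPrimitive N
  have hM' : (0 : ℝ) < (M : ℝ) := by exact_mod_cast hM
  have main : ∀ (c : ℂ) (z : ℍ), c * h₁ z + conj c * (-conj (h₂ (J • z))) = 0 := by
    intro c
    refine deriv_eq_zero_of_re_invariant N
      (H := fun z => c * F₁ z + conj c * conj (F₂ (J • z)))
      (H' := fun z => c * h₁ z + conj c * (-conj (h₂ (J • z))))
      (fun τ => ((hF₁.1 τ).const_mul c).add ((hasDerivAt_conj_comp_J hF₂.1 τ).const_mul (conj c)))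
      ?_ hM' ?_ ?_
    · intro γ hγ z
      have e1 := periodMap_apply_of_hasEquivariantPrimitive hF₁ ⟨γ, hγ⟩ z
      have e2 := periodMap_apply_of_hasEquivariantPrimitive hF₂ (jConjGamma0 N ⟨γ, hγ⟩) (J • z)
      have e3 := DFunLike.congr_fun h (Additive.ofMul (⟨γ, hγ⟩ : Gamma0 N))
      rw [AddMonoidHom.add_apply, charInvolution_apply, toMul_ofMul, e1, e2] at e3
      simp only [jConjGamma0_coe, AddMonoidHom.zero_apply] at e3
      rw [← J_smul_smul] at e3
      have e4 : F₂ (J • γ • z) = F₂ (J • z) - (F₁ (γ • z) - F₁ z) := by linear_combination e3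
      simp only [e4, map_sub]
      simp only [Complex.add_re, Complex.mul_re, Complex.conj_re, Complex.conj_im, Complex.sub_re,
        Complex.sub_im]
      ring
    · intro δ w
      have e1 := hper h₁ F₁ hF₁ δ w
      have e2 := hper h₂ F₂ hF₂ (jConjSL δ) ((-(M : ℝ)) +ᵥ (J • w))
      rw [vadd_vadd, add_neg_cancel, zero_vadd] at e2
      simp only [J_smul_smul, J_smul_vadd, e1, ← e2]
    · intro δ
      obtain ⟨L₁, hL₁⟩ := hF₁.2.2.2 δ
      obtain ⟨L₂, hL₂⟩ := hF₂.2.2.2 (jConjSL δ)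
      have t1 : Tendsto (fun w : ℍ => c * F₁ (δ • w) + conj c * conj (F₂ (J • (δ • w)))) atImInfty
          (𝓝 (c * L₁ + conj c * conj L₂)) := by
        simp only [J_smul_smul]
        exact (hL₁.const_mul c).add
          (((Complex.continuous_conj.tendsto L₂).comp (hL₂.comp tendsto_J_smul)).const_mul (conj c))
      exact t1.isBigO_one ℝ
  have m1 := main 1
  have m2 := main Complex.I
  simp only [map_one, one_mul, Complex.conj_I] at m1 m2
  have a1 : ∀ z, h₁ z = 0 := fun z => by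
    have := m2 z
    have hI : Complex.I * (h₁ z + conj (h₂ (J • z))) = 0 := by linear_combination this
    have h3 := (mul_eq_zero.mp hI).resolve_left Complex.I_ne_zero
    linear_combination (m1 z + h3) / 2
  have a2 : ∀ z, h₂ z = 0 := fun z => by
    have h3 := m1 (J • z)
    rw [a1, J_smul_J_smul] at h3
    have : conj (h₂ z) = 0 := by linear_combination -h3
    simpa using this
  exact ⟨CuspForm.ext a1, CuspForm.ext a2⟩

end Fermat.Agent.S21
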