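import Fermat.Agent.S21.PeriodMap

set_option autoImplicit false

namespace Fermat.Agent.S21

open UpperHalfPlane Filter Topology Function CongruenceSubgroup ModularCurve ModularCurve.Period
open scoped Real Manifold MatrixGroups ModularForm

theorem exists_coprime_kernel (x b c : ℤ) (h : x ^ 2 + b * c = 0) :
    ∃ p q : ℤ, IsCoprime p q ∧ x * p + b * q = 0 ∧ c * p - x * q = 0 := by
  by_cases hxb : x = 0 ∧ b = 0
  · obtain ⟨rfl, rfl⟩ := hxb
    exact ⟨0, 1, isCoprime_zero_left.mpr isUnit_one, by ring, by ring⟩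
  · have hg : (Int.gcd x b : ℤ) ≠ 0 := by
      intro h0
      have : Int.gcd x b = 0 := by exact_mod_cast h0
      rw [Int.gcd_eq_zero_iff] at this
      exact hxb this
    obtain ⟨x', hx'⟩ : (Int.gcd x b : ℤ) ∣ x := Int.gcd_dvd_left ..
    obtain ⟨b', hb'⟩ : (Int.gcd x b : ℤ) ∣ b := Int.gcd_dvd_right ..
    set g : ℤ := (Int.gcd x b : ℤ) with hgdef
    have hcop : IsCoprime x' b' := by
      obtain ⟨u, v, huv⟩ : ∃ u v : ℤ, g = x * u + b * v := ⟨_, _, Int.gcd_eq_gcd_ab x b⟩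
      refine ⟨u, v, ?_⟩
      have : g * (u * x' + v * b') = g * 1 := by
        have e1 : g * x' = x := hx'.symm
        have e2 : g * b' = b := hb'.symm
        linear_combination u * e1 + v * e2 - huv
      exact mul_left_cancel₀ hg this
    refine ⟨b', -x', ?_, ?_, ?_⟩
    · exact (IsCoprime.neg_right hcop.symm)
    · rw [hx', hb']; ring
    · have h2 : g * (g * x' ^ 2 + b' * c) = 0 := by
        have := h; rw [hx', hb'] at this; linear_combination this
      have h3 := (mul_eq_zero.mp h2).resolve_left hg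
      rw [hx']; linear_combination h3

theorem exists_conj_T_zpow_of_trace_eq_two (γ : SL(2, ℤ))
    (h : (γ : Matrix (Fin 2) (Fin 2) ℤ).trace = 2) :
    ∃ (δ : SL(2, ℤ)) (m : ℤ), γ * δ = δ * ModularGroup.T ^ m := by
  have hdet := γ.det_coe
  rw [Matrix.det_fin_two] at hdet
  rw [Matrix.trace_fin_two] at h
  obtain ⟨p, q, hpq, h1, h2⟩ := exists_coprime_kernel (γ 0 0 - 1) (γ 0 1) (γ 1 0) (by
    have h11 : γ 1 1 = 2 - γ 0 0 := by linarith
    rw [h11] at hdet
    linear_combination -hdet)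
  obtain ⟨δ, hδ0, hδ1⟩ := hpq.exists_SL2_col 0
  have hδdet := δ.det_coe
  rw [Matrix.det_fin_two, hδ0, hδ1] at hδdet
  have h11 : γ 1 1 = 2 - γ 0 0 := by linarith
  set r := δ 0 1 with hr
  set s := δ 1 1 with hs
  set x := γ 0 0 - 1 with hx
  have h00 : γ 0 0 = x + 1 := by rw [hx]; ring
  refine ⟨δ, s * (x * r + γ 0 1 * s) - r * (γ 1 0 * r - x * s), ?_⟩
  ext i j
  fin_cases i <;> fin_cases j <;>
    simp [Matrix.mul_apply, Fin.sum_univ_two, ModularGroup.coe_T_zpow, hδ0, hδ1, h11, h00, ← hr, ← hs]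
  · linear_combination h1
  · linear_combination (-(x * r + γ 0 1 * s)) * hδdet - r * s * h1 + r * r * h2
  · linear_combination h2
  · linear_combination (-(γ 1 0 * r - x * s)) * hδdet + s * r * h2 - s * s * h1


theorem exists_conj_T_zpow (γ : SL(2, ℤ)) (h : (γ : Matrix (Fin 2) (Fin 2) ℤ).trace ^ 2 = 4) :
    ∃ (δ : SL(2, ℤ)) (m : ℤ), ∀ w : ℍ, γ • (δ • w) = δ • (ModularGroup.T ^ m • w) := by
  have h2 : (γ : Matrix (Fin 2) (Fin 2) ℤ).trace = 2 ∨ (γ : Matrix (Fin 2) (Fin 2) ℤ).trace = -2 := by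
    have : ((γ : Matrix (Fin 2) (Fin 2) ℤ).trace - 2) * ((γ : Matrix (Fin 2) (Fin 2) ℤ).trace + 2) = 0 := by
      linear_combination h
    rcases mul_eq_zero.mp this with h | h
    · left; linarith
    · right; linarith
  rcases h2 with h2 | h2
  · obtain ⟨δ, m, hδ⟩ := exists_conj_T_zpow_of_trace_eq_two γ h2
    exact ⟨δ, m, fun w => by rw [← mul_smul, hδ, mul_smul]⟩
  · obtain ⟨δ, m, hδ⟩ := exists_conj_T_zpow_of_trace_eq_two (-γ) (by
      rw [Matrix.SpecialLinearGroup.coe_neg, Matrix.trace_neg, h2]; norm_num)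
    refine ⟨δ, m, fun w => ?_⟩
    rw [← ModularGroup.SL_neg_smul γ, ← mul_smul, hδ, mul_smul]

variable {N : ℕ}

/-- The period homomorphism of a cusp form is parabolic. -/
theorem periodMap_mem_parabolicHoms [NeZero N] (f : CuspForm (Gamma0 N) 2) :
    periodMap N f ∈ parabolicHoms ℂ (Gamma0 N) ℂ := by
  rw [mem_parabolicHoms_iff]
  intro γ hγ
  obtain ⟨F, hF⟩ := exists_hasEquivariantPrimitive N f
  obtain ⟨δ, m, hδ⟩ := exists_conj_T_zpow (γ : SL(2, ℤ)) hγ
  obtain ⟨L, hL⟩ := hF.2.2.2 δ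
  have hT : Tendsto (fun w : ℍ => ModularGroup.T ^ m • w) atImInfty atImInfty := by
    simp only [modular_T_zpow_smul, atImInfty, tendsto_comap_iff, Function.comp_def, vadd_im]
    exact tendsto_comap
  have h1 : Tendsto (fun w : ℍ => F (δ • (ModularGroup.T ^ m • w)) - F (δ • w)) atImInfty
      (𝓝 (L - L)) := (hL.comp hT).sub hL
  have h2 : ∀ w : ℍ, F (δ • (ModularGroup.T ^ m • w)) - F (δ • w)
      = periodMap N f (Additive.ofMul γ) := fun w => by
    rw [periodMap_apply_of_hasEquivariantPrimitive hF γ (δ • w), hδ]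
  simp only [h2, sub_self] at h1
  exact tendsto_nhds_unique tendsto_const_nhds h1

end Fermat.Agent.S21
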