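import Fermat.Agent.S21.Injective

set_option autoImplicit false

namespace Fermat.Agent.S21

open UpperHalfPlane Filter Topology Function CongruenceSubgroup ModularCurve ModularCurve.Period
open scoped Real Manifold MatrixGroups ModularForm ComplexConjugate

variable (N : ℕ) [NeZero N]

theorem periodHomPair_injective : Function.Injective (periodHomPair N) := by
  rw [injective_iff_map_eq_zero]
  rintro ⟨f, g⟩ h
  rw [periodHomPair_apply] at h
  have h2 : periodMap N (f + g) + charInvolution N ℂ ℂ (periodMap N (f - g)) = 0 := by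
    have e : periodMap N (f - g) = periodMap N f - periodMap N g :=
      (periodMapLin N).map_sub f g
    rw [periodMap_add, e, map_sub]
    rw [← h]; abel
  obtain ⟨h3, h4⟩ := eq_zero_of_periodMap_add_charInvolution N _ _ h2
  have hf : f = 0 := by
    have : (2 : ℂ) • f = 0 := by
      have : (2 : ℂ) • f = (f + g) + (f - g) := by rw [two_smul]; abel
      rw [this, h3, h4, add_zero]
    exact (smul_eq_zero.mp this).resolve_left two_ne_zero
  have hg : g = 0 := by rw [hf, zero_add] at h3; exact h3
  rw [hf, hg]; rfl

theorem range_periodHomPair_le :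
    LinearMap.range (periodHomPair N) ≤ parabolicHoms ℂ (Gamma0 N) ℂ := by
  rintro _ ⟨⟨f, g⟩, rfl⟩
  rw [periodHomPair_apply]
  have hf := periodMap_mem_parabolicHoms f
  have hg := periodMap_mem_parabolicHoms g
  exact add_mem (add_mem hf (charInvolution_mem_parabolicHoms N ℂ ℂ hf))
    (sub_mem hg (charInvolution_mem_parabolicHoms N ℂ ℂ hg))

/-- Final assembly: the Eichler--Shimura statement follows from the dimension inequality. -/
theorem eichlerShimura_of_finrank_le
    (hfin : Module.Finite ℂ (parabolicHoms ℂ (Gamma0 N) ℂ))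
    (hle : Module.finrank ℂ (parabolicHoms ℂ (Gamma0 N) ℂ)
      ≤ 2 * Module.finrank ℂ (CuspForm (Gamma0 N) 2)) :
    Function.Injective (periodHomPair N)
      ∧ LinearMap.range (periodHomPair N) = parabolicHoms ℂ (Gamma0 N) ℂ := by
  refine ⟨periodHomPair_injective N, ?_⟩
  have hinj := periodHomPair_injective N
  have hle' := range_periodHomPair_le N
  have hfd : Module.Finite ℂ (CuspForm (Gamma0 N) 2 × CuspForm (Gamma0 N) 2) := by
    let φ : (CuspForm (Gamma0 N) 2 × CuspForm (Gamma0 N) 2) →ₗ[ℂ] parabolicHoms ℂ (Gamma0 N) ℂ :=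
      (periodHomPair N).codRestrict _ (fun x => hle' ⟨x, rfl⟩)
    have hφ : Function.Injective φ := fun x y hxy => hinj (congrArg Subtype.val hxy)
    exact Module.Finite.of_injective φ hφ
  have hfd1 : Module.Finite ℂ (CuspForm (Gamma0 N) 2) :=
    Module.Finite.of_surjective (LinearMap.fst ℂ (CuspForm (Gamma0 N) 2) (CuspForm (Gamma0 N) 2))
      LinearMap.fst_surjective
  refine Submodule.eq_of_le_of_finrank_le hle' ?_
  rw [LinearMap.finrank_range_of_inj hinj, Module.finrank_prod]
  omega

end Fermat.Agent.S21
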