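import Fermat.Agent.S21.Parabolic

set_option autoImplicit false

namespace Fermat.Agent.S21

open UpperHalfPlane Filter Topology Function CongruenceSubgroup ModularCurve ModularCurve.Period
open scoped Real Manifold MatrixGroups ModularForm

theorem periodic_comp_ofComplex_of {G : ℍ → ℂ} {h : ℝ} (hG : ∀ w : ℍ, G (h +ᵥ w) = G w) :
    Periodic (G ∘ ofComplex) h := by
  intro w
  by_cases hw : 0 < w.im
  · have hw' : 0 < (w + h).im := by simpa using hw
    simp only [comp_apply, ofComplex_apply_of_im_pos hw', ofComplex_apply_of_im_pos hw]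
    rw [← hG ⟨w, hw⟩]
    congr 1
    ext
    simp [add_comm]
  · have hw1 : w.im ≤ 0 := not_lt.mp hw
    have hw' : (w + h).im ≤ 0 := by simpa using hw1
    simp [ofComplex_apply_of_im_nonpos hw', ofComplex_apply_of_im_nonpos hw1]

theorem mdiff_of_hasDerivAt {G g : ℍ → ℂ} (hG : ∀ τ : ℍ, HasDerivAt (G ∘ ofComplex) (g τ) ↑τ) :
    MDiff G := fun τ => UpperHalfPlane.mdifferentiableAt_iff.mpr (hG τ).differentiableAt

/-- Maximum principle on the (compactified) modular curve: a holomorphic function on `ℍ` whose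
real part is `Γ₀(N)`-invariant and which is holomorphic at all cusps has zero derivative. -/
theorem deriv_eq_zero_of_re_invariant (N : ℕ) [NeZero N] {H H' : ℍ → ℂ}
    (hH : ∀ τ : ℍ, HasDerivAt (H ∘ ofComplex) (H' τ) ↑τ)
    (hinv : ∀ γ ∈ Gamma0 N, ∀ z : ℍ, (H (γ • z)).re = (H z).re)
    {M : ℝ} (hM : 0 < M)
    (hper : ∀ (δ : SL(2, ℤ)) (w : ℍ), H (δ • (M +ᵥ w)) = H (δ • w))
    (hbdd : ∀ δ : SL(2, ℤ), IsBoundedAtImInfty (fun w : ℍ => H (δ • w))) (z : ℍ) :
    H' z = 0 := by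
  classical
  have : Fintype (SL(2, ℤ) ⧸ Gamma0 N) := Fintype.ofFinite _
  let δ : SL(2, ℤ) ⧸ Gamma0 N → SL(2, ℤ) := fun x => (x.out)⁻¹
  let Hx : SL(2, ℤ) ⧸ Gamma0 N → ℍ → ℂ := fun x w => H (δ x • w)
  let c : SL(2, ℤ) ⧸ Gamma0 N → ℂ → ℂ := fun x => cuspFunction M (Hx x)
  let E : SL(2, ℤ) ⧸ Gamma0 N → ℂ → ℂ := fun x q => Complex.exp (c x q)
  have hperx : ∀ x, Periodic (Hx x ∘ ofComplex) M := fun x =>
    periodic_comp_ofComplex_of (hper (δ x))
  have hcd : ∀ x, DifferentiableOn ℂ (c x) (Metric.ball 0 1) := fun x =>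
    differentiableOn_cuspFunction_ball hM (hperx x)
      (mdiff_of_hasDerivAt (hasDerivAt_comp_smul hH (δ x))) (hbdd (δ x))
  have hEd : ∀ x, DifferentiableOn ℂ (E x) (Metric.ball 0 1) := fun x => (hcd x).cexp
  have hcq : ∀ x (τ : ℍ), c x (Periodic.qParam M τ) = Hx x τ := fun x τ =>
    eq_cuspFunction τ hM.ne' (hperx x)
  set r : ℝ := Real.exp (-π / M) with hr
  have hr0 : 0 ≤ r := (Real.exp_pos _).le
  have hr1 : r < 1 := by
    rw [hr, Real.exp_lt_one_iff]
    exact div_neg_of_neg_of_pos (by simpa using Real.pi_pos) hM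
  have hqr : ∀ w : ℍ, 1 / 2 ≤ w.im → Periodic.qParam M w ∈ Metric.closedBall (0 : ℂ) r := by
    intro w hw
    rw [mem_closedBall_zero_iff, Periodic.norm_qParam, hr, Real.exp_le_exp,
      div_le_div_iff_of_pos_right hM]
    have : (w : ℂ).im = w.im := rfl
    rw [this]
    nlinarith [Real.pi_pos]
  have key : ∀ z : ℍ, ∃ x, ∃ w : ℍ, 1 / 2 ≤ w.im ∧ (H z).re = (Hx x w).re := by
    intro z
    obtain ⟨g, hg⟩ := ModularGroup.exists_one_half_le_im_smul z
    obtain ⟨h, hh⟩ := QuotientGroup.mk_out_eq_mul (Gamma0 N) g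
    refine ⟨(g : SL(2, ℤ) ⧸ Gamma0 N), g • z, hg, ?_⟩
    have : δ (g : SL(2, ℤ) ⧸ Gamma0 N) • (g • z) = (h : SL(2, ℤ))⁻¹ • z := by
      simp only [δ, hh, mul_inv_rev, mul_smul, inv_smul_smul]
    simp only [Hx, this]
    exact (hinv _ (inv_mem h.2) z).symm
  have hmax : ∀ x, ∃ q ∈ Metric.closedBall (0 : ℂ) r,
      IsMaxOn (fun q => ‖E x q‖) (Metric.closedBall (0 : ℂ) r) q := fun x =>
    (isCompact_closedBall (0 : ℂ) r).exists_isMaxOn ⟨0, by simpa using hr0⟩
      ((hEd x).continuousOn.mono (Metric.closedBall_subset_ball hr1)).norm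
  choose qx hqx hqxmax using hmax
  obtain ⟨x₀, -, hx₀⟩ := Finset.exists_max_image Finset.univ (fun x => ‖E x (qx x)‖)
    ⟨(1 : SL(2, ℤ)), Finset.mem_univ _⟩
  have claim : ∀ q ∈ Metric.ball (0 : ℂ) 1, ∃ w ∈ Metric.closedBall (0 : ℂ) r,
      ‖E x₀ q‖ ≤ ‖E x₀ w‖ := by
    intro q hq
    refine ⟨qx x₀, hqx x₀, ?_⟩
    rcases eq_or_ne q 0 with rfl | hq0
    · exact hqxmax x₀ (by simpa using hr0)
    · have hq1 : ‖q‖ < 1 := by simpa using hq
      let τ : ℍ := ⟨Periodic.invQParam M q, Periodic.im_invQParam_pos_of_norm_lt_one hM hq1 hq0⟩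
      have hτ : Periodic.qParam M τ = q := Periodic.qParam_right_inv hM.ne' hq0
      obtain ⟨x, w, hw, hxw⟩ := key (δ x₀ • τ)
      have h1 : ‖E x₀ q‖ = ‖E x (Periodic.qParam M w)‖ := by
        simp only [E, Complex.norm_exp]
        rw [← hτ, hcq, hcq]
        exact congrArg Real.exp hxw
      rw [h1]
      exact (hqxmax x (hqr w hw)).trans (hx₀ x (Finset.mem_univ _))
  have hconst := Complex.eq_const_of_exists_le (hEd x₀) hr0 hr1 claim
  -- now differentiate
  have hexp : ∀ τ : ℍ, Complex.exp (Hx x₀ τ) = E x₀ 0 := by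
    intro τ
    have := hconst (x := Periodic.qParam M τ) (by simpa using Periodic.norm_qParam_lt_one hM τ.im_pos)
    simpa only [E, hcq, Function.const_apply] using this
  have hz : ∀ τ : ℍ, (H' ∣[(2 : ℤ)] (δ x₀)) τ = 0 := by
    intro τ
    have h1 := (hasDerivAt_comp_smul hH (δ x₀) τ).cexp
    have h2 : HasDerivAt (fun w => Complex.exp (((fun w : ℍ => H (δ x₀ • w)) ∘ ofComplex) w)) 0 ↑τ := by
      have : (fun w => Complex.exp (((fun w : ℍ => H (δ x₀ • w)) ∘ ofComplex) w))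
          = fun _ => E x₀ 0 := by
        funext w
        exact hexp (ofComplex w)
      rw [this]
      exact hasDerivAt_const _ _
    have h3 := h1.unique h2
    exact (mul_eq_zero.mp h3).resolve_left (Complex.exp_ne_zero _)
  have := hz ((δ x₀)⁻¹ • z)
  rw [ModularForm.SL_slash_apply, smul_inv_smul] at this
  exact (mul_eq_zero.mp this).resolve_right (zpow_ne_zero _ (denom_ne_zero _ _))

end Fermat.Agent.S21
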