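import Mathlib
import Fermat.Prelude.Def_ModularCurve_PeriodHomPair
import Fermat.Prelude.Thm_Subgroup_IsArithmetic_exists_nat_mem_strictPeriods_conj
import Fermat.Prelude.Thm_CongruenceSubgroup_one_mem_strictPeriods_Gamma0

set_option autoImplicit false

namespace Fermat.Agent.S21

open UpperHalfPlane Filter Topology Function CongruenceSubgroup ModularCurve ModularCurve.Period
open scoped Real Manifold MatrixGroups ModularForm

/-- A periodic holomorphic function on `ℍ` vanishing at `i∞` has a primitive vanishing at `i∞`. -/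
theorem exists_primitive_of_periodic {φ : ℍ → ℂ} {h : ℝ} (hh : 0 < h)
    (hper : Periodic (φ ∘ ofComplex) h) (hhol : MDiff φ) (hzero : IsZeroAtImInfty φ) :
    ∃ Φ : ℍ → ℂ, (∀ τ : ℍ, HasDerivAt (Φ ∘ ofComplex) (φ τ) ↑τ) ∧ Tendsto Φ atImInfty (𝓝 0) := by
  have hbdd : IsBoundedAtImInfty φ := hzero.boundedAtFilter
  set c : ℂ → ℂ := cuspFunction h φ with hc
  have hcd : DifferentiableOn ℂ c (Metric.ball 0 1) :=
    differentiableOn_cuspFunction_ball hh hper hhol hbdd
  have hc0 : c 0 = 0 := by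
    rw [hc, cuspFunction_apply_zero hh (analyticAt_cuspFunction_zero hh hper hhol hbdd) hper]
    exact hzero.valueAtInfty_eq_zero
  have hψd : DifferentiableOn ℂ (dslope c 0) (Metric.ball 0 1) :=
    (Complex.differentiableOn_dslope (Metric.ball_mem_nhds 0 one_pos)).mpr hcd
  obtain ⟨Ψ, hΨ0, hΨ⟩ := hψd.isExactOn_ball.with_val_at 0 0
  refine ⟨fun τ => (h / (2 * π * Complex.I)) * Ψ (Periodic.qParam h τ), fun τ => ?_, ?_⟩
  · have hq1 : Periodic.qParam h (τ : ℂ) ∈ Metric.ball (0 : ℂ) 1 := by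
      simpa using Periodic.norm_qParam_lt_one hh τ.im_pos
    have hq0 : Periodic.qParam h (τ : ℂ) ≠ 0 := Periodic.qParam_ne_zero _
    have hqd : HasDerivAt (Periodic.qParam h)
        (Periodic.qParam h (τ : ℂ) * (2 * π * Complex.I / h)) (τ : ℂ) := by
      simpa only [id_eq, mul_one] using!
        (((hasDerivAt_id (τ : ℂ)).const_mul (2 * π * Complex.I)).div_const (h : ℂ)).cexp
    have h1 := ((hΨ _ hq1).comp (τ : ℂ) hqd).const_mul ((h : ℂ) / (2 * π * Complex.I))
    have hval : (h : ℂ) / (2 * π * Complex.I) * (dslope c 0 (Periodic.qParam h (τ : ℂ)) *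
        (Periodic.qParam h (τ : ℂ) * (2 * π * Complex.I / h))) = φ τ := by
      rw [dslope_of_ne _ hq0, slope_def_field, hc0, sub_zero, sub_zero, hc,
        eq_cuspFunction τ hh.ne' hper]
      have hh' : (h : ℂ) ≠ 0 := by exact_mod_cast hh.ne'
      have hpi : (2 * π * Complex.I : ℂ) ≠ 0 := Complex.two_pi_I_ne_zero
      field_simp
    rw [hval] at h1
    refine h1.congr_of_eventuallyEq ?_
    filter_upwards [isOpen_upperHalfPlaneSet.mem_nhds τ.im_pos] with w hw
    simp [Function.comp_apply, ofComplex_apply_of_im_pos hw]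
  · have hcont : ContinuousAt Ψ 0 := (hΨ 0 (Metric.mem_ball_self one_pos)).continuousAt
    have h2 : Tendsto (fun τ : ℍ => Ψ (Periodic.qParam h τ)) atImInfty (𝓝 (Ψ 0)) :=
      hcont.tendsto.comp (qParam_tendsto_atImInfty hh)
    simpa [hΨ0] using h2.const_mul ((h : ℂ) / (2 * π * Complex.I))


/-- A function on `ℍ` with vanishing derivative is constant. -/
theorem eq_of_hasDerivAt_zero {G : ℍ → ℂ} (hG : ∀ τ : ℍ, HasDerivAt (G ∘ ofComplex) 0 ↑τ)
    (z w : ℍ) : G z = G w := by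
  have hopen : IsOpen upperHalfPlaneSet := isOpen_upperHalfPlaneSet
  have hconn : IsPreconnected upperHalfPlaneSet := (convex_halfSpace_im_gt 0).isPreconnected
  have hd : DifferentiableOn ℂ (G ∘ ofComplex) upperHalfPlaneSet := fun x hx =>
    (hG ⟨x, hx⟩).differentiableAt.differentiableWithinAt
  have hz : Set.EqOn (deriv (G ∘ ofComplex)) 0 upperHalfPlaneSet := fun x hx => (hG ⟨x, hx⟩).deriv
  have := hopen.is_const_of_deriv_eq_zero hconn hd hz z.im_pos w.im_pos
  simpa using this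

/-- Chain rule for the Möbius action of `SL(2, ℤ)`. -/
theorem hasDerivAt_comp_smul {F f : ℍ → ℂ} (hF : ∀ τ : ℍ, HasDerivAt (F ∘ ofComplex) (f τ) ↑τ)
    (γ : SL(2, ℤ)) (τ : ℍ) :
    HasDerivAt ((fun w : ℍ => F (γ • w)) ∘ ofComplex) ((f ∣[(2 : ℤ)] γ) τ) ↑τ := by
  have hdet : (0 : ℝ) < ((γ : GL (Fin 2) ℝ) : Matrix (Fin 2) (Fin 2) ℝ).det := by
    rw [← Matrix.GeneralLinearGroup.val_det_apply]; simp
  have h1 := (hasStrictDerivAt_smul hdet τ).hasDerivAt
  have h2 : HasDerivAt (F ∘ ofComplex) (f (γ • τ)) (↑((γ : GL (Fin 2) ℝ) • ofComplex (τ : ℂ))) := by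
    rw [ofComplex_apply]; exact hF (γ • τ)
  have h3 := h2.comp (τ : ℂ) h1
  have hdet1 : ((γ : GL (Fin 2) ℝ) : Matrix (Fin 2) (Fin 2) ℝ).det = 1 := by
    rw [← Matrix.GeneralLinearGroup.val_det_apply]; simp
  have hval : f (γ • τ) * (((((γ : GL (Fin 2) ℝ) : Matrix (Fin 2) (Fin 2) ℝ).det : ℝ) : ℂ) /
      denom (γ : GL (Fin 2) ℝ) ↑τ ^ 2) = (f ∣[(2 : ℤ)] γ) τ := by
    rw [ModularForm.SL_slash_apply, hdet1]
    simp [zpow_neg, div_eq_mul_inv]
  rw [hval] at h3
  refine h3.congr_of_eventuallyEq ?_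
  filter_upwards with w
  simp [Function.comp_apply]

/-- Two primitives of the same function differ by a constant. -/
theorem sub_eq_sub_of_hasDerivAt {F G f : ℍ → ℂ}
    (hF : ∀ τ : ℍ, HasDerivAt (F ∘ ofComplex) (f τ) ↑τ)
    (hG : ∀ τ : ℍ, HasDerivAt (G ∘ ofComplex) (f τ) ↑τ) (z w : ℍ) :
    F z - G z = F w - G w := by
  refine eq_of_hasDerivAt_zero (G := fun z => F z - G z) (fun τ => ?_) z w
  have := (hF τ).sub (hG τ)
  rw [sub_self] at this
  exact this

variable (N : ℕ) [NeZero N]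

theorem slash_periodic :
    ∃ M : ℕ, 0 < M ∧ ∀ (f : CuspForm (Gamma0 N) 2) (δ : SL(2, ℤ)),
      Periodic ((⇑f ∣[(2 : ℤ)] δ) ∘ ofComplex) (M : ℝ) := by
  obtain ⟨M, hM, h⟩ := Subgroup.IsArithmetic.exists_nat_mem_strictPeriods_conj
    ((Gamma0 N : Subgroup SL(2, ℤ)) : Subgroup (GL (Fin 2) ℝ))
  refine ⟨M, hM, fun f δ => ?_⟩
  have h1 := h δ⁻¹
  rw [map_inv] at h1
  exact SlashInvariantFormClass.periodic_comp_ofComplex
    (CuspForm.translate f (Matrix.SpecialLinearGroup.mapGL ℝ δ)) (h := (M : ℝ)) h1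

theorem exists_hasEquivariantPrimitive (f : CuspForm (Gamma0 N) 2) :
    ∃ F : ℍ → ℂ, HasEquivariantPrimitive N f F := by
  have hper : Periodic (⇑f ∘ ofComplex) (1 : ℝ) :=
    SlashInvariantFormClass.periodic_comp_ofComplex f (one_mem_strictPeriods_Gamma0 N)
  obtain ⟨F, hF, hF0⟩ := exists_primitive_of_periodic one_pos hper (CuspFormClass.holo f)
    (CuspFormClass.zero_at_infty f)
  refine ⟨F, hF, hF0, fun γ => ?_, fun δ => ?_⟩
  · refine ⟨F ((γ : SL(2, ℤ)) • I) - F I, fun z => ?_⟩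
    refine sub_eq_sub_of_hasDerivAt (F := fun w => F ((γ : SL(2, ℤ)) • w)) (f := f) (fun τ => ?_) hF z I
    have := hasDerivAt_comp_smul hF (γ : SL(2, ℤ)) τ
    have h2 : ⇑f ∣[(2 : ℤ)] (γ : SL(2, ℤ)) = ⇑f := by
      rw [ModularForm.SL_slash]
      exact SlashInvariantFormClass.slash_action_eq f _ (Subgroup.mem_map_of_mem _ γ.2)
    rwa [h2] at this
  · obtain ⟨M, hM, hMper⟩ := slash_periodic N
    obtain ⟨G, hG, hG0⟩ := exists_primitive_of_periodic (h := (M : ℝ)) (by exact_mod_cast hM)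
      (hMper f δ) ((CuspFormClass.holo f).slash 2 _) (CuspFormClass.zero_at_infty_slash f δ)
    refine ⟨F (δ • I) - G I, ?_⟩
    have h1 : ∀ w : ℍ, F (δ • w) = G w + (F (δ • I) - G I) := fun w => by
      have := sub_eq_sub_of_hasDerivAt (F := fun w => F (δ • w)) (hasDerivAt_comp_smul hF δ) hG w I
      linear_combination this
    have h2 := hG0.add_const (F (δ • I) - G I)
    rw [zero_add] at h2
    exact h2.congr (fun w => (h1 w).symm)


end Fermat.Agent.S21
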